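import Fermat.Agent.JN19.Main

/-!
# Properness of the identity component from the valuative criterion
-/

set_option autoImplicit false

universe u

open CategoryTheory CategoryTheory.Limits AlgebraicGeometry NeronModelInfra
  GoodReductionJacobian

namespace Fermat.Agent.JN19

/-- a scheme locally of finite type over a field, with unique valuative lifts, is separated -/
theorem isSeparated_of_uniqueness {k : Type u} [Field k] {X : Scheme.{u}}
    (p : X ⟶ Spec (CommRingCat.of k)) [LocallyOfFiniteType p]
    (hun : ValuativeCriterion.Uniqueness p) : IsSeparated p := by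
  have h1 : IsLocallyNoetherian (Spec (CommRingCat.of k)) := inferInstance
  have h2 : IsLocallyNoetherian X := LocallyOfFiniteType.isLocallyNoetherian p
  have h3 : QuasiSeparated p := inferInstance
  exact IsSeparated.of_valuativeCriterion p hun

/-- existence of valuative lifts passes to clopen subschemes -/
theorem existence_clopen {S X : Scheme.{u}} (p : X ⟶ S) (hex : ValuativeCriterion.Existence p)
    (U : X.Opens) (hc : IsClosed (U : Set X)) : ValuativeCriterion.Existence (U.ι ≫ p) := by
  intro Sq
  let Sq' : ValuativeCommSq p :=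
    { R := Sq.R
      K := Sq.K
      i₁ := Sq.i₁ ≫ U.ι
      i₂ := Sq.i₂
      commSq := ⟨by rw [Category.assoc]; exact Sq.commSq.w⟩ }
  obtain ⟨l, hl₁, hl₂⟩ := (hex Sq').exists_lift
  have hl₁' : Spec.map (CommRingCat.ofHom (algebraMap Sq.R Sq.K)) ≫ l = Sq.i₁ ≫ U.ι := hl₁
  have hmem : ∀ t, l t ∈ U := by
    have hirr : IrreducibleSpace (Spec (CommRingCat.of Sq.R)) := by
      have : IsDomain (CommRingCat.of Sq.R) := Sq.domain
      infer_instance
    refine fun t => JNa.mem_of_isClopen l U hc
      (Spec.map (CommRingCat.ofHom (algebraMap Sq.R Sq.K)) (IsLocalRing.closedPoint Sq.K)) ?_ t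
    rw [← Scheme.Hom.comp_apply, hl₁', Scheme.Hom.comp_apply]
    exact (Sq.i₁ _).2
  refine ⟨⟨⟨JNa.liftU U l hmem, ?_, ?_⟩⟩⟩
  · rw [← cancel_mono U.ι, Category.assoc, JNa.liftU_ι, hl₁']
  · rw [JNa.liftU_ι_assoc]
    exact hl₂

/-- **Properness of a quasi-compact clopen subscheme.** -/
theorem isProper_of_valuative {k : Type u} [Field k] {X : Scheme.{u}}
    (p : X ⟶ Spec (CommRingCat.of k)) [LocallyOfFiniteType p]
    (hex : ValuativeCriterion.Existence p) (hun : ValuativeCriterion.Uniqueness p)
    (U : X.Opens) (hc : IsClosed (U : Set X)) (hqc : QuasiCompact (U.ι ≫ p)) :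
    IsProper (U.ι ≫ p) := by
  have h1 : IsSeparated p := isSeparated_of_uniqueness p hun
  have h2 : IsSeparated (U.ι ≫ p) := inferInstance
  have h3 : UniversallyClosed (U.ι ≫ p) :=
    UniversallyClosed.of_valuativeCriterion _ (existence_clopen p hex U hc)
  have h4 : LocallyOfFiniteType (U.ι ≫ p) := inferInstance
  exact {}

/-- **Properness of the identity component of a smooth group scheme** over an algebraically closed
field, from the valuative criteria. -/
theorem isProper_of_groupLaw {k : Type u} [Field k] [IsAlgClosed k] {X : Scheme.{u}}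
    (p : X ⟶ Spec (CommRingCat.of k)) [LocallyOfFiniteType p] (L : RelativeGroupLaw k p)
    (hex : ValuativeCriterion.Existence p) (hun : ValuativeCriterion.Uniqueness p)
    (U : X.Opens) (hc : IsClosed (U : Set X)) [IsIntegral (U : Scheme)]
    (h0 : ∀ x, (L.one (𝟙 _)).1 x ∈ U) : IsProper (U.ι ≫ p) :=
  isProper_of_valuative p hex hun U hc (quasiCompact_of_groupLaw p L U hc h0)

end Fermat.Agent.JN19
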