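import Fermat.Agent.JNa.Comp
import Fermat.Agent.JNa.QC

/-!
# Output of the blocks N-GI and N-QC of S25
-/

set_option autoImplicit false

universe u

open CategoryTheory CategoryTheory.Limits AlgebraicGeometry NeronModelInfra
  GoodReductionJacobian

namespace Fermat.Agent.JN19

variable {k : Type u} [Field k] [IsAlgClosed k]

theorem exists_idComp {X : Scheme.{u}} (p : X ⟶ Spec (CommRingCat.of k)) [Smooth p] (x₀ : X) :
    ∃ U : X.Opens, x₀ ∈ U ∧ IsClosed (U : Set X) ∧ IsIntegral (U : Scheme) :=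
  JNa.exists_idComp p x₀

theorem geometricallyIntegral_of_isIntegral {X : Scheme.{u}} (p : X ⟶ Spec (CommRingCat.of k))
    [IsIntegral X] : GeometricallyIntegral p :=
  JNa.geometricallyIntegral_of_isAlgClosed p

theorem quasiCompact_of_groupLaw {X : Scheme.{u}} (p : X ⟶ Spec (CommRingCat.of k))
    [LocallyOfFiniteType p] (L : RelativeGroupLaw k p) (U : X.Opens) (hc : IsClosed (U : Set X))
    [IsIntegral (U : Scheme)] (h0 : ∀ x, (L.one (𝟙 _)).1 x ∈ U) : QuasiCompact (U.ι ≫ p) :=
  JNa.quasiCompact_of_groupLaw p L U hc h0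

end Fermat.Agent.JN19
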